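import Fermat.Agent.S56.GW.EC.LecTop.Core
import Fermat.Agent.S56.GW.EC.Syl.Main
import Fermat.Agent.S56.GW.LEC.Kum2.BaseH2
import Fermat.Agent.S56.GW.LEC.Alg

/-!
# S56 [GW-LEC]: final wiring of the local Euler characteristic (prefix `s56elt_`)

`s56elt_final : s56elt_Triv_stmt → s56l_BaseH1_stmt → s56l_BR_stmt → s56gw_LEC_stmt`, where

* `s56elt_Triv_stmt` ([EC-H3-loc]) : for every `p`, `q` there is a level `W₁` of `G_q` with
  `s56ecs_TrivHyp (tl_levelsLoc q) p W₁` (vanishing of `H³` with trivial coefficients of order `p`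
  over the open subgroups which are `p`-groups modulo a small normal level);
* `s56l_BaseH1_stmt` ([LEC-BASEH1]) and `s56l_BR_stmt` ([LEC-H2]) are the Props of
  `GW/LEC/Seams.lean`.
-/

set_option autoImplicit false

namespace Fermat.Agent.S56

open Fermat.Agent.S55 groupCohomology Function

/-- **[EC-H3-loc]** in the form consumed by `s56ecs_main`. -/
def s56elt_Triv_stmt : Prop :=
  ∀ (p : ℕ) [Fact p.Prime] (q : Nat.Primes),
    ∃ W₁ ∈ (tl_levelsLoc q).levels, s56ecs_TrivHyp.{0} (tl_levelsLoc q) p W₁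

/-- The vanishing of `H³` for all finite smooth `p`-torsion modules from trivial coefficients
([EC-SYL], `s56ecs_main`). -/
theorem s56elt_H3_of_triv (h : s56elt_Triv_stmt) : s56elt_H3_stmt := by
  intro p _ q X _ _ _ hX hpX
  obtain ⟨W₁, hW₁, hZ⟩ := h p q
  exact s56ecs_main (tl_levelsLoc q) p W₁ hW₁ hZ X hX ⟨1, fun x => by rw [pow_one]; exact hpX x⟩

/-- **[LEC-RE]** from the vanishing of `H³`. -/
theorem s56elt_RE_of_H3 (h : s56elt_H3_stmt) : s56l_RE_stmt := by
  intro p _ q A B C _ _ _ _ _ _ _ E hB hpA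
  exact s56elt_REHyp_of_H3Hyp _ p (h p q) E hB hpA

/-- **[GW-LEC] final wiring**: Tate's local Euler characteristic (the seam `s56gw_LEC_stmt` of
[GW]) from [EC-H3-loc], [LEC-BASEH1] and [LEC-H2]. -/
theorem s56elt_final (hT : s56elt_Triv_stmt) (hB1 : s56l_BaseH1_stmt) (hBR : s56l_BR_stmt) :
    s56gw_LEC_stmt :=
  s56lb_main (s56elt_core (s56elt_RE_of_H3 (s56elt_H3_of_triv hT))
    (s56l_base_of hB1 (s56lk2_baseH2 hBR) s56lg_alg1 s56lg_alg2) hB1 (s56lk2_baseH2 hBR))

end Fermat.Agent.S56
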