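import Fermat.Agent.S56.GW.LEC.Seams
import Fermat.Agent.S56.GW.EC.Sh.Bridge

/-!
# S56 [GW-LEC]: the conjugation clause of `s56l_BR_stmt` is formal (prefix `s56elt_`)

* `s56elt_conj_trivial` : for `V ⊴ G` of index prime to `p` and a smooth `G`-module `X` killed by
  `p`, if `|H²(V, X)| ≤ |H²(G, X)|` (finite) then `G` acts trivially on `H²(V, X)` by conjugation
  (restriction is injective by `s56esh_hs_H2`, hence bijective, and restricted classes are
  invariant);
* `s56elt_Br_stmt` : `|H²(U, μ_p)| = p` for every open subgroup `U` of `G_q`;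
* `s56elt_BR_of_Br : s56elt_Br_stmt → s56l_BR_stmt`.
-/

set_option autoImplicit false
set_option linter.style.haveILetI false

namespace Fermat.Agent.S56

open Fermat.Agent.S55 groupCohomology Function ExtCitation

/-- Conjugation acts trivially on `H²(V, X)` as soon as it is not bigger than `H²(G, X)`. -/
theorem s56elt_conj_trivial {G : Type*} [Group G] {L : LevelSys G} {V : Subgroup G} [V.Normal]
    {X : Type*} [AddCommGroup X] [DistribMulAction G X] (hV : ∃ W ∈ L.levels, W ≤ V)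
    (hX : L.IsSmooth X) {p : ℕ} (hp : p.Prime) (hpX : ∀ x : X, p • x = 0)
    (hpV : ¬ p ∣ V.index) [Finite (lvH2 (s56esh_LU L V) X)]
    (hcard : Nat.card (lvH2 (s56esh_LU L V) X) ≤ Nat.card (lvH2 L X)) (g : G)
    (y : lvH2 (s56esh_LU L V) X) : (s56esh_conjV L V X g).H2 y = y := by
  have hinj := (s56esh_hs_H2 hV hX hp hpX hpV).1
  have hbij := hinj.bijective_of_nat_card_le hcard
  obtain ⟨z, rfl⟩ := hbij.2 y
  exact s56esh_conjV_res_H2 g z

/-- **`Br(K)[p] = ℤ/p`** for every finite extension `K` of `ℚ_q` (`U = Gal(ℚ̄_q/K)` any subgroup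
containing a level), in the Kummer form `|H²(U, μ_p)| = p`. -/
def s56elt_Br_stmt : Prop :=
  ∀ (p : ℕ) [Fact p.Prime] (q : Nat.Primes) (U : Subgroup (primeLocalGaloisGroup q)),
    (∃ V₀ ∈ (tl_levelsLoc q).levels, V₀ ≤ U) →
    Nat.card (lvH2 (s56esh_LU (tl_levelsLoc q) U) ↥(s56l_mu p q)) = p

/-- **[LEC-H2]**: `s56l_BR_stmt` from the cardinality statement alone. -/
theorem s56elt_BR_of_Br (h : s56elt_Br_stmt) : s56l_BR_stmt := by
  intro p _ q W U _ hB
  have hpp : p.Prime := Fact.out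
  obtain ⟨W₀, hW₀, hW₀W⟩ := hB.level
  have cW : Nat.card (lvH2 (s56esh_LU (tl_levelsLoc q) W) ↥(s56l_mu p q)) = p :=
    h p q W ⟨W₀, hW₀, hW₀W⟩
  have cU : Nat.card (lvH2 (s56esh_LU (tl_levelsLoc q) U) ↥(s56l_mu p q)) = p :=
    h p q U ⟨W₀, hW₀, hW₀W.trans hB.le⟩
  have cWU : Nat.card (lvH2 (s56esh_LU (s56esh_LU (tl_levelsLoc q) U) (W.subgroupOf U))
      ↥(s56l_mu p q)) = p := by
    rw [← Nat.card_congr (Equiv.ofBijective _
      (s56esh_subMor_H2_bijective (L := tl_levelsLoc q) (X := ↥(s56l_mu p q)) hB.le))]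
    exact cW
  refine ⟨cWU, fun g y => ?_⟩
  haveI : Finite (lvH2 (s56esh_LU (s56esh_LU (tl_levelsLoc q) U) (W.subgroupOf U))
      ↥(s56l_mu p q)) := Nat.finite_of_card_ne_zero (by rw [cWU]; exact hpp.ne_zero)
  have hsm : (tl_levelsLoc q).IsSmooth ↥(s56l_mu p q) := by
    intro ζ
    obtain ⟨V, hV, hfix⟩ := tl_isSmooth_locUnits q (ζ : tl_locUnits q)
    exact ⟨V, hV, fun u hu => Subtype.ext (hfix u hu)⟩
  refine s56elt_conj_trivial (L := s56esh_LU (tl_levelsLoc q) U) (V := W.subgroupOf U)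
    (X := ↥(s56l_mu p q)) ⟨W₀.comap U.subtype, ⟨W₀, hW₀, rfl⟩, fun u hu => hW₀W hu⟩
    (s56esh_smooth_res hsm) hpp (fun x => s56l_mu_tors p q x) hB.index ?_ g y
  rw [cWU, cU]

end Fermat.Agent.S56
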