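import Fermat.Agent.S56.GW.EC.LecTop.Top
import Fermat.Agent.S56.GW.LEC.Seams

/-!
# S56 [LEC-TOP]: the core statement of [GW-LEC] from right exactness and the base case
(prefix `s56elt_`, and `s56lb_main` = [LEC-BRIDGE])

In the vocabulary of `GW/LEC/Seams.lean`:

* `s56elt_core : s56l_RE_stmt → s56l_Base_stmt → s56l_BaseH1_stmt → s56l_BaseH2_stmt →
    s56l_Core_stmt` (the last two are only used for the finiteness of `lvH1`, `lvH2` in the base
  case);
* `s56lb_main : s56l_Core_stmt → s56gw_LEC_stmt`.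
-/

set_option autoImplicit false
set_option linter.style.haveILetI false
set_option linter.unusedSectionVars false

namespace Fermat.Agent.S56

open Fermat.Agent.S55 groupCohomology Function CategoryTheory Module ExtCitation

/-- **[LEC-BRIDGE]**: the core statement of [GW-LEC] gives the seam `s56gw_LEC_stmt` of [GW]. -/
theorem s56lb_main : s56l_Core_stmt → s56gw_LEC_stmt := by
  intro hC p _ hp2 M _ hsm q
  haveI := s56elt_act_finite M q
  refine s56elt_bridge M q ?_
  obtain ⟨f1, f2, h⟩ := hC p hp2 q (tl_Act (s56gw_res M q)) (s56elt_act_tors M q)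
    (s56elt_act_smooth M q hsm)
  refine ⟨f1, f2, ?_⟩
  rw [h]
  split_ifs <;> simp

/-- `μ_p ⊂ Ω` is a smooth `G_q`-module. -/
theorem s56elt_mu_smooth (p : ℕ) (q : Nat.Primes) :
    (tl_levelsLoc q).IsSmooth ↥(s56l_mu p q) := by
  intro ζ
  obtain ⟨U, hU, h⟩ := tl_isSmooth_locUnits q (ζ : tl_locUnits q)
  exact ⟨U, hU, fun u hu => Subtype.ext (h u hu)⟩

/-- **[LEC-TOP] + [LEC-ADDFN] + [LEC-CYC] + [LEC-FIN]**: the core statement of [GW-LEC] from right
exactness and the base case. -/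
theorem s56elt_core (hRE : s56l_RE_stmt) (hBase : s56l_Base_stmt) (hB1 : s56l_BaseH1_stmt)
    (hB2 : s56l_BaseH2_stmt) : s56l_Core_stmt := by
  intro p _ hp2 q N _ _ _ hpN hN
  have hpp : p.Prime := Fact.out
  -- a normal level fixing `N` and `μ_p`
  obtain ⟨W₀, hW₀⟩ := (tl_levelsLoc q).nonempty
  obtain ⟨W₁, hW₁, -, -, hfixN⟩ := hN.exists_level (tl_levelsLoc q)
    (Set.toFinite (Set.univ : Set N)) hW₀
  haveI : Finite ↥(s56l_mu p q) :=
    Nat.finite_of_card_ne_zero (by rw [s56l_mu_card]; exact hpp.ne_zero)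
  obtain ⟨W, hW, hWW₁, hWn, hfixZ⟩ := (s56elt_mu_smooth p q).exists_level (tl_levelsLoc q)
    (Set.toFinite (Set.univ : Set ↥(s56l_mu p q))) hW₁
  have hRE' : s56elt_REHyp (tl_levelsLoc q) p := fun E hB hpA => hRE p q E hB hpA
  have hSub : s56elt_SubBaseHyp (tl_levelsLoc q) p (if q = pPrime p then 1 else 0) W := by
    intro U hWU _ hidx N' _ _ _ hpN' htriv
    have hBH : s56l_BaseHyp p q W U :=
      ⟨hWn, ⟨W, hW, le_rfl⟩, hWU, hidx, fun w hw ζ => hfixZ w hw ζ (Set.mem_univ ζ)⟩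
    have hCH : s56l_CoefHyp p W U N' := ⟨inferInstance, hpN', htriv⟩
    refine ⟨(hB1 p hp2 q W U hBH N' hCH).1, (hB2 p hp2 q W U hBH N' hCH).1, ?_⟩
    have h : Nat.card (lvH1 ((tl_levelsLoc q).comap U.subtype) N') =
        Nat.card (lvH0 (G := U) N') * Nat.card (lvH2 ((tl_levelsLoc q).comap U.subtype) N') *
          (if q = pPrime p then Nat.card N' ^ U.index else 1) := hBase p hp2 q W U hBH N' hCH
    rw [h]
    by_cases hq : q = pPrime p
    · rw [if_pos hq, if_pos hq, one_mul]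
    · rw [if_neg hq, if_neg hq, zero_mul, pow_zero]
  have h := s56elt_main (tl_levelsLoc q) p (if q = pPrime p then 1 else 0) W hW hRE' hSub N hpN
    (fun w hw x => hfixN w (hWW₁ hw) x (Set.mem_univ x))
  obtain ⟨f1, f2, h⟩ := h
  refine ⟨f1, f2, ?_⟩
  rw [h]
  split_ifs <;> simp

end Fermat.Agent.S56
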