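import Fermat.Agent.S56.GW.EC.Syl.Additive

/-!
# S56 [LEC-TOP]: the Euler–Poincaré statement in the level formalism (prefix `s56elt_`)

* `s56elt_EP L c X` : `lvH1 L X`, `lvH2 L X` are finite and
  `|H¹| = |H⁰| |H²| |X|^c`;
* invariance of `lvH0/lvH1/lvH2` (hence of `s56elt_EP`) under equivariant isomorphisms;
* finiteness along the long exact sequence;
* `s56elt_Inf π ρ` : the inflation of a representation of `Δ` along `π : G →* Δ`, as a `G`-module.
-/

set_option autoImplicit false
set_option linter.style.haveILetI false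

namespace Fermat.Agent.S56

open Fermat.Agent.S55 groupCohomology

section EP

variable {G : Type*} [Group G] (L : LevelSys G)

/-- The Euler–Poincaré statement with exponent `c`:
`|H¹(X)| = |H⁰(X)| |H²(X)| |X|^c`, with the finiteness of `H¹` and `H²`. -/
def s56elt_EP (c : ℕ) (X : Type*) [AddCommGroup X] [DistribMulAction G X] : Prop :=
  Finite (lvH1 L X) ∧ Finite (lvH2 L X) ∧
    Nat.card (lvH1 L X)
      = Nat.card (lvH0 (G := G) X) * Nat.card (lvH2 L X) * Nat.card X ^ c

variable {X Y : Type*} [AddCommGroup X] [DistribMulAction G X] [AddCommGroup Y]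
  [DistribMulAction G Y]

/-- The inverse of an equivariant isomorphism is equivariant. -/
lemma s56elt_symm_equiv (e : X ≃+ Y) (he : ∀ (g : G) (x : X), e (g • x) = g • e x) (g : G)
    (y : Y) : e.symm (g • y) = g • e.symm y := by
  apply e.injective
  rw [he, e.apply_symm_apply, e.apply_symm_apply]

/-- Invariants of isomorphic modules. -/
def s56elt_H0congr (e : X ≃+ Y) (he : ∀ (g : G) (x : X), e (g • x) = g • e x) :
    lvH0 (G := G) X ≃ lvH0 (G := G) Y where
  toFun := (LvMor.ofCoeff L e.toAddMonoidHom he).H0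
  invFun := (LvMor.ofCoeff L e.symm.toAddMonoidHom (s56elt_symm_equiv e he)).H0
  left_inv x := Subtype.ext (e.symm_apply_apply x.1)
  right_inv y := Subtype.ext (e.apply_symm_apply y.1)

/-- `H¹` of isomorphic modules. -/
def s56elt_H1congr (e : X ≃+ Y) (he : ∀ (g : G) (x : X), e (g • x) = g • e x) :
    lvH1 L X ≃ lvH1 L Y where
  toFun := (LvMor.ofCoeff L e.toAddMonoidHom he).H1
  invFun := (LvMor.ofCoeff L e.symm.toAddMonoidHom (s56elt_symm_equiv e he)).H1
  left_inv x := by
    obtain ⟨c, rfl⟩ := lvH1mk_surjective x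
    rw [LvMor.H1_mk, LvMor.H1_mk]
    congr 1
    apply Subtype.ext
    funext g
    exact e.symm_apply_apply _
  right_inv y := by
    obtain ⟨c, rfl⟩ := lvH1mk_surjective y
    rw [LvMor.H1_mk, LvMor.H1_mk]
    congr 1
    apply Subtype.ext
    funext g
    exact e.apply_symm_apply _

/-- `H²` of isomorphic modules. -/
def s56elt_H2congr (e : X ≃+ Y) (he : ∀ (g : G) (x : X), e (g • x) = g • e x) :
    lvH2 L X ≃ lvH2 L Y where
  toFun := (LvMor.ofCoeff L e.toAddMonoidHom he).H2
  invFun := (LvMor.ofCoeff L e.symm.toAddMonoidHom (s56elt_symm_equiv e he)).H2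
  left_inv x := by
    obtain ⟨c, rfl⟩ := lvH2mk_surjective x
    rw [LvMor.H2_mk, LvMor.H2_mk]
    congr 1
    apply Subtype.ext
    funext g
    exact e.symm_apply_apply _
  right_inv y := by
    obtain ⟨c, rfl⟩ := lvH2mk_surjective y
    rw [LvMor.H2_mk, LvMor.H2_mk]
    congr 1
    apply Subtype.ext
    funext g
    exact e.apply_symm_apply _

/-- The Euler–Poincaré statement is invariant under equivariant isomorphisms. -/
theorem s56elt_EP_congr (c : ℕ) (e : X ≃+ Y) (he : ∀ (g : G) (x : X), e (g • x) = g • e x)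
    (h : s56elt_EP L c X) : s56elt_EP L c Y := by
  obtain ⟨h1, h2, h3⟩ := h
  refine ⟨(Equiv.finite_iff (s56elt_H1congr L e he)).1 h1,
    (Equiv.finite_iff (s56elt_H2congr L e he)).1 h2, ?_⟩
  rw [← Nat.card_congr (s56elt_H1congr L e he), ← Nat.card_congr (s56elt_H2congr L e he),
    ← Nat.card_congr (s56elt_H0congr L e he), ← Nat.card_congr e.toEquiv]
  exact h3

end EP

section Fin

variable {G : Type*} [Group G] {A B C : Type*} [AddCommGroup A] [DistribMulAction G A]
  [AddCommGroup B] [DistribMulAction G B] [AddCommGroup C] [DistribMulAction G C]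
  (E : LvSES G A B C) (L : LevelSys G)

/-- Finiteness of the middle term of an exact sequence. -/
lemma s56elt_finite_of_exact {P Q R : Type*} [AddCommGroup P] [AddCommGroup Q] [AddCommGroup R]
    [Finite P] [Finite R] (f : P →+ Q) (g : Q →+ R) (h : ∀ y, g y = 0 → ∃ x, f x = y) :
    Finite Q := by
  haveI : Fintype P := Fintype.ofFinite P
  haveI : Fintype R := Fintype.ofFinite R
  have hle : g.ker ≤ f.range := fun y hy => h y hy
  haveI : Fintype Q := AddGroup.fintypeOfKerLeRange f g hle
  exact Finite.of_fintype Q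

include E in
/-- `H¹(A)` is finite if `H⁰(C)` and `H¹(B)` are. -/
theorem s56elt_finite_H1A (hB : L.IsSmooth B) [Finite (lvH0 (G := G) C)] [Finite (lvH1 L B)] :
    Finite (lvH1 L A) :=
  s56elt_finite_of_exact (E.δ0 L hB) (E.mi L).H1 (fun x hx => (E.exact_H1A L hB x).1 hx)

include E in
/-- `H²(A)` is finite if `H¹(C)` and `H²(B)` are. -/
theorem s56elt_finite_H2A (hB : L.IsSmooth B) [Finite (lvH1 L C)] [Finite (lvH2 L B)] :
    Finite (lvH2 L A) :=
  s56elt_finite_of_exact (E.δ1 L hB) (E.mi L).H2 (fun x hx => (E.exact_H2A L hB x).1 hx)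

include E in
/-- `H¹(B)` is finite if `H¹(A)` and `H¹(C)` are. -/
theorem s56elt_finite_H1B (hB : L.IsSmooth B) [Finite (lvH1 L A)] [Finite (lvH1 L C)] :
    Finite (lvH1 L B) :=
  s56elt_finite_of_exact (E.mi L).H1 (E.mπ L).H1 (fun x hx => (E.exact_H1B L hB x).1 hx)

include E in
/-- `H²(B)` is finite if `H²(A)` and `H²(C)` are. -/
theorem s56elt_finite_H2B (hB : L.IsSmooth B) [Finite (lvH2 L A)] [Finite (lvH2 L C)] :
    Finite (lvH2 L B) :=
  s56elt_finite_of_exact (E.mi L).H2 (E.mπ L).H2 (fun x hx => (E.exact_H2B L hB x).1 hx)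

end Fin

section Tors

variable {G : Type*} [Group G] (L : LevelSys G) {X : Type*} [AddCommGroup X]
  [DistribMulAction G X]

/-- `H¹` of a module killed by `n` is killed by `n`. -/
lemma s56elt_nsmul_H1 (n : ℕ) (hX : ∀ x : X, n • x = 0) (y : lvH1 L X) : n • y = 0 := by
  obtain ⟨c, rfl⟩ := lvH1mk_surjective y
  rw [← map_nsmul]
  have : n • c = 0 := by
    apply Subtype.ext
    funext g
    simp only [AddSubgroup.coe_nsmul, Pi.smul_apply, hX, AddSubgroup.coe_zero, Pi.zero_apply]
  rw [this, map_zero]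

/-- `H²` of a module killed by `n` is killed by `n`. -/
lemma s56elt_nsmul_H2 (n : ℕ) (hX : ∀ x : X, n • x = 0) (y : lvH2 L X) : n • y = 0 := by
  obtain ⟨c, rfl⟩ := lvH2mk_surjective y
  rw [← map_nsmul]
  have : n • c = 0 := by
    apply Subtype.ext
    funext g
    simp only [AddSubgroup.coe_nsmul, Pi.smul_apply, hX, AddSubgroup.coe_zero, Pi.zero_apply]
  rw [this, map_zero]

/-- A finite abelian group killed by a prime `p` has `p`-power order. -/
lemma s56elt_card_eq_pow {p : ℕ} [Fact p.Prime] (Y : Type*) [AddCommGroup Y] [Finite Y]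
    (hY : ∀ y : Y, p • y = 0) : Nat.card Y = p ^ (Nat.card Y).factorization p := by
  have hpg : IsPGroup p (Multiplicative Y) := by
    intro y
    refine ⟨1, ?_⟩
    rw [pow_one]
    exact congrArg Multiplicative.ofAdd (hY (Multiplicative.toAdd y))
  obtain ⟨n, hn⟩ := IsPGroup.iff_card.1 hpg
  have hc : Nat.card Y = p ^ n := by
    rw [← hn]
    exact Nat.card_congr Multiplicative.ofAdd
  rw [hc, Nat.Prime.factorization_pow (Fact.out : p.Prime)]
  simp

end Tors

end Fermat.Agent.S56
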