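import Fermat.Agent.S56.GW.EC.LecTop.Inf

/-!
# S56 [LEC-TOP]: the formal half of the local Euler characteristic (prefix `s56elt_`)

Let `L` be a level system on `G`, `π : G →* Δ` a homomorphism to a finite group whose kernel
contains a level, `p` a prime, `c : ℕ`.  If

* (RE) `lvH2` is right exact on short exact sequences with finite kernel killed by `p`
  (a consequence of the vanishing of `H³`, `s56elt_REHyp_of_H3Hyp`);
* (BASE) the Euler–Poincaré statement `s56elt_EP L c` holds for the inflations of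
  `coind_B^Δ Res_B M`, `B ≤ Δ` cyclic of order prime to `p`, `M` a finite `F_p[Δ]`-module,

then `s56elt_EP L c` holds for the inflation of every finite `F_p[Δ]`-module (`s56elt_formal`).
-/

set_option autoImplicit false
set_option linter.style.haveILetI false
set_option linter.unusedSectionVars false

namespace Fermat.Agent.S56

open Fermat.Agent.S55 groupCohomology Function

section Val

variable (p : ℕ) [hp : Fact p.Prime]

/-- The `p`-adic valuation, integer valued. -/
def s56elt_v (n : ℕ) : ℤ := (n.factorization p : ℤ)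

lemma s56elt_v_mul {a b : ℕ} (ha : a ≠ 0) (hb : b ≠ 0) :
    s56elt_v p (a * b) = s56elt_v p a + s56elt_v p b := by
  unfold s56elt_v
  rw [Nat.factorization_mul ha hb, Finsupp.add_apply]
  push_cast
  rfl

lemma s56elt_v_pow (a c : ℕ) : s56elt_v p (a ^ c) = c * s56elt_v p a := by
  unfold s56elt_v
  rw [Nat.factorization_pow, Finsupp.smul_apply]
  simp

lemma s56elt_pow_v {Y : Type*} [AddCommGroup Y] [Finite Y] (hY : ∀ y : Y, p • y = 0) :
    Nat.card Y = p ^ (s56elt_v p (Nat.card Y)).toNat := by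
  unfold s56elt_v
  rw [Int.toNat_natCast]
  exact s56elt_card_eq_pow Y hY

lemma s56elt_v_nonneg (n : ℕ) : 0 ≤ s56elt_v p n := by
  unfold s56elt_v
  positivity

end Val

section Formal

variable {G Δ : Type} [Group G] [Group Δ] [Finite Δ] (L : LevelSys G) (π : G →* Δ)
  (p : ℕ) [hp : Fact p.Prime] (c : ℕ)

/-- The Euler characteristic function (logarithmic form) on the representations of `Δ`. -/
noncomputable def s56elt_fn (M : Type) [AddCommGroup M] [Module (ZMod p) M]
    (ρ : Representation (ZMod p) Δ M) : ℤ :=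
  s56elt_v p (Nat.card (lvH1 L (s56elt_Inf π ρ)))
    - s56elt_v p (Nat.card (lvH0 (G := G) (s56elt_Inf π ρ)))
    - s56elt_v p (Nat.card (lvH2 L (s56elt_Inf π ρ)))
    - c * s56elt_v p (Nat.card M)

/-- The finiteness hypothesis. -/
def s56elt_FinHyp : Prop :=
  ∀ (M : Type) [AddCommGroup M] [Module (ZMod p) M] [Module.Finite (ZMod p) M]
    (ρ : Representation (ZMod p) Δ M),
    Finite (lvH1 L (s56elt_Inf π ρ)) ∧ Finite (lvH2 L (s56elt_Inf π ρ))

/-- The right-exactness hypothesis: `lvH2` is right exact on short exact sequences with finite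
kernel killed by `p` and smooth middle term. -/
def s56elt_REHyp : Prop :=
  ∀ {A B C : Type} [AddCommGroup A] [DistribMulAction G A] [Finite A]
    [AddCommGroup B] [DistribMulAction G B] [AddCommGroup C] [DistribMulAction G C]
    (E : LvSES G A B C), L.IsSmooth B → (∀ a : A, p • a = 0) → Surjective (E.mπ L).H2

/-- The vanishing of `H³` (in the form `s56ecs_H3V`) for finite smooth modules killed by `p`. -/
def s56elt_H3Hyp : Prop :=
  ∀ (X : Type) [AddCommGroup X] [DistribMulAction G X] [Finite X], L.IsSmooth X →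
    (∀ x : X, p • x = 0) → s56ecs_H3V L X

/-- Right exactness from the vanishing of `H³`. -/
theorem s56elt_REHyp_of_H3Hyp (h : s56elt_H3Hyp L p) : s56elt_REHyp L p := by
  intro A B C _ _ _ _ _ _ _ E hB hpA
  exact s56ecs_H2_surjective E hB (h A (E.isSmooth_A L hB) hpA)

/-- The base hypothesis. -/
def s56elt_BaseHyp : Prop :=
  ∀ (B : Subgroup Δ), IsCyclic B → (Nat.card B).Coprime p → ∀ (M : Type) [AddCommGroup M]
    [Module (ZMod p) M] [Module.Finite (ZMod p) M] (ρ : Representation (ZMod p) Δ M),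
    s56elt_EP L c (s56elt_Inf π (Representation.coind B.subtype (s56ei_res ρ B)))

variable {L π p c}

/-- `EP` in terms of the function `s56elt_fn`. -/
theorem s56elt_EP_iff_fn (M : Type) [AddCommGroup M] [Module (ZMod p) M]
    [Module.Finite (ZMod p) M] (ρ : Representation (ZMod p) Δ M)
    (h1 : Finite (lvH1 L (s56elt_Inf π ρ))) (h2 : Finite (lvH2 L (s56elt_Inf π ρ))) :
    s56elt_EP L c (s56elt_Inf π ρ) ↔ s56elt_fn L π p c M ρ = 0 := by
  haveI : Finite M := Module.finite_of_finite (ZMod p)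
  have hpX : ∀ x : s56elt_Inf π ρ, p • x = 0 := s56elt_Inf.nsmul_eq_zero π ρ
  have e1 := s56elt_pow_v p (Y := lvH1 L (s56elt_Inf π ρ)) (s56elt_nsmul_H1 L p hpX)
  have e2 := s56elt_pow_v p (Y := lvH2 L (s56elt_Inf π ρ)) (s56elt_nsmul_H2 L p hpX)
  have e0 := s56elt_pow_v p (Y := lvH0 (G := G) (s56elt_Inf π ρ))
    (fun y => Subtype.ext (hpX y.1))
  have eM := s56elt_pow_v p (Y := M) (fun m => hpX m)
  have n1 := s56elt_v_nonneg p (Nat.card (lvH1 L (s56elt_Inf π ρ)))
  have n2 := s56elt_v_nonneg p (Nat.card (lvH2 L (s56elt_Inf π ρ)))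
  have n0 := s56elt_v_nonneg p (Nat.card (lvH0 (G := G) (s56elt_Inf π ρ)))
  have nM := s56elt_v_nonneg p (Nat.card M)
  have hcard : Nat.card (s56elt_Inf π ρ) = Nat.card M := rfl
  have hp1 : 1 < p := hp.out.one_lt
  unfold s56elt_fn
  constructor
  · rintro ⟨-, -, h⟩
    rw [hcard] at h
    have h' := congrArg (s56elt_v p) h
    rw [s56elt_v_mul p (mul_ne_zero Nat.card_pos.ne' Nat.card_pos.ne')
      (pow_ne_zero _ Nat.card_pos.ne'), s56elt_v_mul p Nat.card_pos.ne' Nat.card_pos.ne',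
      s56elt_v_pow] at h'
    linarith
  · intro h
    refine ⟨h1, h2, ?_⟩
    rw [hcard, e1, e2, e0, eM, ← pow_mul, ← pow_add, ← pow_add]
    congr 1
    zify
    rw [Int.toNat_of_nonneg n1, Int.toNat_of_nonneg n2, Int.toNat_of_nonneg n0,
      Int.toNat_of_nonneg nM]
    linarith

/-- Additivity of `s56elt_fn`. -/
theorem s56elt_fn_add (hπ : ∃ W ∈ L.levels, W ≤ π.ker) (hRE : s56elt_REHyp L p)
    (hFin : s56elt_FinHyp L π p)
    (M₁ M₂ M₃ : Type) [AddCommGroup M₁] [Module (ZMod p) M₁] [AddCommGroup M₂]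
    [Module (ZMod p) M₂] [AddCommGroup M₃] [Module (ZMod p) M₃] [Module.Finite (ZMod p) M₁]
    [Module.Finite (ZMod p) M₂] [Module.Finite (ZMod p) M₃]
    (ρ₁ : Representation (ZMod p) Δ M₁) (ρ₂ : Representation (ZMod p) Δ M₂)
    (ρ₃ : Representation (ZMod p) Δ M₃) (i : M₁ →ₗ[ZMod p] M₂) (q : M₂ →ₗ[ZMod p] M₃)
    (hi : Injective i) (hq : Surjective q) (hex : LinearMap.range i = LinearMap.ker q)
    (hi' : ∀ g m, i (ρ₁ g m) = ρ₂ g (i m)) (hq' : ∀ g m, q (ρ₂ g m) = ρ₃ g (q m)) :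
    s56elt_fn L π p c M₂ ρ₂ = s56elt_fn L π p c M₁ ρ₁ + s56elt_fn L π p c M₃ ρ₃ := by
  haveI : Finite M₁ := Module.finite_of_finite (ZMod p)
  haveI : Finite M₂ := Module.finite_of_finite (ZMod p)
  haveI : Finite M₃ := Module.finite_of_finite (ZMod p)
  set E := s56elt_ses π ρ₁ ρ₂ ρ₃ i q hi hq hex hi' hq' with hE
  have hB : L.IsSmooth (s56elt_Inf π ρ₂) := s56elt_Inf.isSmooth ρ₂ L hπ
  obtain ⟨f1A, f2A⟩ := hFin M₁ ρ₁
  obtain ⟨f1B, f2B⟩ := hFin M₂ ρ₂
  obtain ⟨f1C, f2C⟩ := hFin M₃ ρ₃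
  have hsurj : Surjective (E.mπ L).H2 := hRE E hB (s56elt_Inf.nsmul_eq_zero π ρ₁)
  have key := s56ecs_chi_mul E L hB hsurj
  have hM : Nat.card M₂ = Nat.card M₁ * Nat.card M₃ := by
    have h1 := s56ecs_card_exact i.toAddMonoidHom q.toAddMonoidHom (fun b => by
      have : b ∈ LinearMap.ker q ↔ b ∈ LinearMap.range i := by rw [hex]
      exact this)
    rw [h1, ← s56ecs_card_inj i.toAddMonoidHom hi, s56ecs_card_surj q.toAddMonoidHom hq]
  have key' := congrArg (s56elt_v p) key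
  have hM' := congrArg (s56elt_v p) hM
  have pos : ∀ {Y : Type} [AddCommGroup Y] [Finite Y], Nat.card Y ≠ 0 :=
    fun {Y} _ _ => Nat.card_pos.ne'
  rw [s56elt_v_mul p (mul_ne_zero (mul_ne_zero pos pos) pos) pos,
    s56elt_v_mul p (mul_ne_zero pos pos) pos, s56elt_v_mul p pos pos,
    s56elt_v_mul p (mul_ne_zero (mul_ne_zero (mul_ne_zero pos pos) pos) pos) pos,
    s56elt_v_mul p (mul_ne_zero (mul_ne_zero pos pos) pos) pos,
    s56elt_v_mul p (mul_ne_zero pos pos) pos, s56elt_v_mul p pos pos] at key'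
  rw [s56elt_v_mul p pos pos] at hM'
  unfold s56elt_fn
  rw [hM']
  linarith

/-- The additive function. -/
noncomputable def s56elt_addFn (hπ : ∃ W ∈ L.levels, W ≤ π.ker) (hRE : s56elt_REHyp L p)
    (hFin : s56elt_FinHyp L π p) (c : ℕ) : s56ei_AddFn (ZMod p) Δ where
  f := fun M _ _ ρ => s56elt_fn L π p c M ρ
  add := fun M₁ M₂ M₃ _ _ _ _ _ _ _ _ _ ρ₁ ρ₂ ρ₃ i q hi hq hex hi' hq' =>
    s56elt_fn_add hπ hRE hFin M₁ M₂ M₃ ρ₁ ρ₂ ρ₃ i q hi hq hex hi' hq'

/-- The embedding of `M` in the module coinduced from the trivial subgroup. -/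
def s56elt_iota {M : Type} [AddCommGroup M] [Module (ZMod p) M]
    (ρ : Representation (ZMod p) Δ M) :
    M →ₗ[ZMod p] Representation.coindV (⊥ : Subgroup Δ).subtype (s56ei_res ρ ⊥) where
  toFun m := ⟨fun g => ρ g m, by
    intro b h
    have hb : (b : Δ) = 1 := Subgroup.mem_bot.1 b.2
    simp only [Subgroup.subtype_apply, hb, one_mul, s56ei_res_apply, map_one,
      Module.End.one_apply]⟩
  map_add' m m' := by
    apply Subtype.ext
    funext g
    exact map_add (ρ g) m m'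
  map_smul' a m := by
    apply Subtype.ext
    funext g
    exact map_smul (ρ g) a m

lemma s56elt_iota_injective {M : Type} [AddCommGroup M] [Module (ZMod p) M]
    (ρ : Representation (ZMod p) Δ M) : Injective (s56elt_iota ρ) := by
  intro m m' h
  have := congrFun (congrArg Subtype.val h) 1
  simpa [s56elt_iota] using this

lemma s56elt_iota_equiv {M : Type} [AddCommGroup M] [Module (ZMod p) M]
    (ρ : Representation (ZMod p) Δ M) (h : Δ) (m : M) :
    s56elt_iota ρ (ρ h m)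
      = Representation.coind (⊥ : Subgroup Δ).subtype (s56ei_res ρ ⊥) h (s56elt_iota ρ m) := by
  apply Subtype.ext
  funext g
  show ρ g (ρ h m) = ρ (g * h) m
  rw [map_mul]
  rfl

/-- **Finiteness for all modules from the base case `B = 1`.** -/
theorem s56elt_finHyp (hπ : ∃ W ∈ L.levels, W ≤ π.ker) (hBase : s56elt_BaseHyp L π p c) :
    s56elt_FinHyp L π p := by
  have hbot : IsCyclic (⊥ : Subgroup Δ) := inferInstance
  have hcop : (Nat.card (⊥ : Subgroup Δ)).Coprime p := by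
    rw [Subgroup.card_bot]
    exact Nat.coprime_one_left p
  -- step 1: finiteness of `H¹`
  have step1 : ∀ (M : Type) [AddCommGroup M] [Module (ZMod p) M] [Module.Finite (ZMod p) M]
      (ρ : Representation (ZMod p) Δ M), Finite (lvH1 L (s56elt_Inf π ρ)) := by
    intro M _ _ _ ρ
    set ρ₀ := Representation.coind (⊥ : Subgroup Δ).subtype (s56ei_res ρ ⊥) with hρ₀
    have hstab : ∀ g, ∀ w ∈ LinearMap.range (s56elt_iota ρ), ρ₀ g w ∈
        LinearMap.range (s56elt_iota ρ) := by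
      rintro g _ ⟨m, rfl⟩
      exact ⟨ρ g m, s56elt_iota_equiv ρ g m⟩
    set E := s56elt_ses π ρ ρ₀ (s56ei_quot ρ₀ _ hstab) (s56elt_iota ρ)
      (LinearMap.range (s56elt_iota ρ)).mkQ (s56elt_iota_injective ρ)
      (Submodule.mkQ_surjective _) (Submodule.ker_mkQ _).symm (s56elt_iota_equiv ρ)
      (fun g m => rfl) with hE
    have hB : L.IsSmooth (s56elt_Inf π ρ₀) := s56elt_Inf.isSmooth ρ₀ L hπ
    obtain ⟨f1, -, -⟩ := hBase ⊥ hbot hcop M ρ
    haveI : Finite (Representation.coindV (⊥ : Subgroup Δ).subtype (s56ei_res ρ ⊥)) :=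
      Module.finite_of_finite (ZMod p)
    haveI : Finite (s56elt_Inf π (s56ei_quot ρ₀ _ hstab)) :=
      Finite.of_surjective (LinearMap.range (s56elt_iota ρ)).mkQ (Submodule.mkQ_surjective _)
    exact s56elt_finite_H1A E L hB
  intro M _ _ _ ρ
  refine ⟨step1 M ρ, ?_⟩
  set ρ₀ := Representation.coind (⊥ : Subgroup Δ).subtype (s56ei_res ρ ⊥) with hρ₀
  have hstab : ∀ g, ∀ w ∈ LinearMap.range (s56elt_iota ρ), ρ₀ g w ∈
      LinearMap.range (s56elt_iota ρ) := by
    rintro g _ ⟨m, rfl⟩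
    exact ⟨ρ g m, s56elt_iota_equiv ρ g m⟩
  set E := s56elt_ses π ρ ρ₀ (s56ei_quot ρ₀ _ hstab) (s56elt_iota ρ)
    (LinearMap.range (s56elt_iota ρ)).mkQ (s56elt_iota_injective ρ)
    (Submodule.mkQ_surjective _) (Submodule.ker_mkQ _).symm (s56elt_iota_equiv ρ)
    (fun g m => rfl) with hE
  have hB : L.IsSmooth (s56elt_Inf π ρ₀) := s56elt_Inf.isSmooth ρ₀ L hπ
  obtain ⟨-, f2, -⟩ := hBase ⊥ hbot hcop M ρ
  haveI := step1 _ (s56ei_quot ρ₀ _ hstab)
  exact s56elt_finite_H2A E L hB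

/-- **The formal theorem**: the Euler–Poincaré statement for all finite `F_p[Δ]`-modules from
right-exactness and the base class. -/
theorem s56elt_formal (hπ : ∃ W ∈ L.levels, W ≤ π.ker) (hRE : s56elt_REHyp L p)
    (hBase : s56elt_BaseHyp L π p c)
    (M : Type) [AddCommGroup M] [Module (ZMod p) M] [Module.Finite (ZMod p) M]
    (ρ : Representation (ZMod p) Δ M) : s56elt_EP L c (s56elt_Inf π ρ) := by
  have hFin := s56elt_finHyp hπ hBase
  obtain ⟨h1, h2⟩ := hFin M ρ
  rw [s56elt_EP_iff_fn M ρ h1 h2]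
  refine s56ei_main' p (s56elt_addFn hπ hRE hFin c) ?_ M ρ
  intro B hB hcop N _ _ _ σ
  obtain ⟨g1, g2⟩ := hFin _ (Representation.coind B.subtype (s56ei_res σ B))
  exact (s56elt_EP_iff_fn _ _ g1 g2).1 (hBase B hB hcop N σ)

end Formal

end Fermat.Agent.S56
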