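import Fermat.Agent.S56.GW.EC.LecTop.Defs
import Fermat.Agent.S56.GW.EC.Ind.FinalP

/-!
# S56 [LEC-TOP]: inflation of representations of a finite quotient (prefix `s56elt_`)

`s56elt_Inf π ρ` : the `G`-module obtained from a representation `ρ` of `Δ` along `π : G →* Δ`;
smoothness, torsion, short exact sequences.
-/

set_option autoImplicit false
set_option linter.style.haveILetI false
set_option linter.unusedSectionVars false

namespace Fermat.Agent.S56

open Fermat.Agent.S55 groupCohomology Function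

section Inf

variable {G Δ : Type*} [Group G] [Group Δ] (π : G →* Δ) {k : Type*} [CommRing k]
  {M : Type*} [AddCommGroup M] [Module k M] (ρ : Representation k Δ M)

/-- The inflation of the representation `ρ` of `Δ` along `π : G →* Δ`: the carrier of `ρ` with
the action of `G` through `π`. -/
@[nolint unusedArguments]
def s56elt_Inf (_π : G →* Δ) (_ρ : Representation k Δ M) : Type _ := M

instance s56elt_Inf.instAddCommGroup : AddCommGroup (s56elt_Inf π ρ) :=
  inferInstanceAs (AddCommGroup M)

instance s56elt_Inf.instModule : Module k (s56elt_Inf π ρ) := inferInstanceAs (Module k M)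

instance s56elt_Inf.instAction : DistribMulAction G (s56elt_Inf π ρ) where
  smul g m := ρ (π g) m
  one_smul m := by show ρ (π 1) m = m; rw [map_one, map_one]; rfl
  mul_smul g h m := by
    show ρ (π (g * h)) m = ρ (π g) (ρ (π h) m)
    rw [map_mul, map_mul]; rfl
  smul_zero g := map_zero (ρ (π g))
  smul_add g m m' := map_add (ρ (π g)) m m'

/-- The identity `M → s56elt_Inf π ρ`. -/
def s56elt_toInf : M →+ s56elt_Inf π ρ := AddMonoidHom.id M

/-- The identity `s56elt_Inf π ρ → M`. -/
def s56elt_ofInf : s56elt_Inf π ρ →+ M := AddMonoidHom.id M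

theorem s56elt_Inf.smul_def (g : G) (m : s56elt_Inf π ρ) : g • m = ρ (π g) m := rfl

/-- The identity, as an additive equivalence `s56elt_Inf π ρ ≃+ M`. -/
def s56elt_InfEquiv : s56elt_Inf π ρ ≃+ M := AddEquiv.refl M

theorem s56elt_InfEquiv_smul (g : G) (m : s56elt_Inf π ρ) :
    s56elt_InfEquiv π ρ (g • m) = ρ (π g) (s56elt_InfEquiv π ρ m) := rfl

instance s56elt_Inf.instFinite [Finite M] : Finite (s56elt_Inf π ρ) := inferInstanceAs (Finite M)

theorem s56elt_Inf.card : Nat.card (s56elt_Inf π ρ) = Nat.card M := rfl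

variable {π}

/-- The inflation is smooth as soon as the kernel of `π` contains a level. -/
theorem s56elt_Inf.isSmooth (L : LevelSys G) (hπ : ∃ W ∈ L.levels, W ≤ π.ker) :
    L.IsSmooth (s56elt_Inf π ρ) := by
  obtain ⟨W, hW, hWπ⟩ := hπ
  intro m
  refine ⟨W, hW, fun w hw => ?_⟩
  rw [s56elt_Inf.smul_def, MonoidHom.mem_ker.1 (hWπ hw), map_one]
  rfl

end Inf

section InfZMod

variable {G Δ : Type*} [Group G] [Group Δ] (π : G →* Δ) {p : ℕ} [Fact p.Prime]
  {M : Type*} [AddCommGroup M] [Module (ZMod p) M] (ρ : Representation (ZMod p) Δ M)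

theorem s56elt_Inf.nsmul_eq_zero (m : s56elt_Inf π ρ) : p • m = 0 :=
  ZModModule.char_nsmul_eq_zero p (G := M) m

end InfZMod

section SES

variable {G Δ : Type*} [Group G] [Group Δ] (π : G →* Δ) {k : Type*} [CommRing k]
  {M₁ M₂ M₃ : Type*} [AddCommGroup M₁] [Module k M₁] [AddCommGroup M₂] [Module k M₂]
  [AddCommGroup M₃] [Module k M₃]
  (ρ₁ : Representation k Δ M₁) (ρ₂ : Representation k Δ M₂) (ρ₃ : Representation k Δ M₃)

/-- A short exact sequence of representations of `Δ` gives a short exact sequence of inflated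
`G`-modules. -/
def s56elt_ses (i : M₁ →ₗ[k] M₂) (q : M₂ →ₗ[k] M₃) (hi : Injective i) (hq : Surjective q)
    (hex : LinearMap.range i = LinearMap.ker q)
    (hi' : ∀ g m, i (ρ₁ g m) = ρ₂ g (i m)) (hq' : ∀ g m, q (ρ₂ g m) = ρ₃ g (q m)) :
    LvSES G (s56elt_Inf π ρ₁) (s56elt_Inf π ρ₂) (s56elt_Inf π ρ₃) where
  i := i.toAddMonoidHom
  π := q.toAddMonoidHom
  i_equiv := fun g a => hi' (π g) a
  π_equiv := fun g b => hq' (π g) b
  i_inj := hi
  π_surj := hq
  exact := fun b => by
    have : b ∈ LinearMap.ker q ↔ b ∈ LinearMap.range i := by rw [hex]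
    exact this

end SES

end Fermat.Agent.S56
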