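import Fermat.Agent.S56.GW.EC.LecTop.Formal
import Fermat.Agent.S56.GW.EC.Sh.H2

/-!
# S56 [LEC-TOP]: the base class through Shapiro's lemma (prefix `s56elt_`)

The base hypothesis `s56elt_BaseHyp` of the formal theorem (inflations of `coind_B^Δ Res_B M`)
follows from the Euler–Poincaré statement for the subgroups `U = π⁻¹(B)` of `G` with exponent
`c * [G : U]` (`s56elt_SubBaseHyp`), by Shapiro's lemma in the level formalism (`s56esh_mor`).
-/

set_option autoImplicit false
set_option linter.style.haveILetI false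
set_option linter.unusedSectionVars false

namespace Fermat.Agent.S56

open Fermat.Agent.S55 groupCohomology Function

section Coind

variable {G : Type*} [Group G] (L : LevelSys G) (U : Subgroup G)
  (N : Type*) [AddCommGroup N] [DistribMulAction U N]

/-- Shapiro's lemma for the Euler–Poincaré statement. -/
theorem s56elt_EP_coind (hU : ∃ V ∈ L.levels, V ≤ U) (hN : (L.comap U.subtype).IsSmooth N)
    (c c' : ℕ) (hcard : Nat.card (s56esh_Coind L U N) ^ c = Nat.card N ^ c')
    (h : s56elt_EP (L.comap U.subtype) c' N) : s56elt_EP L c (s56esh_Coind L U N) := by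
  obtain ⟨h1, h2, h3⟩ := h
  have e0 := Equiv.ofBijective _ (s56esh_H0_bijective (L := L) (U := U) (N := N))
  have e1 := Equiv.ofBijective _ (s56esh_H1_bijective (L := L) (U := U) (N := N) hU hN)
  have e2 := Equiv.ofBijective _ (s56esh_H2_bijective (L := L) (U := U) (N := N) hU hN)
  refine ⟨(Equiv.finite_iff e1).2 h1, (Equiv.finite_iff e2).2 h2, ?_⟩
  rw [Nat.card_congr e1, Nat.card_congr e2, Nat.card_congr e0, hcard]
  exact h3

end Coind

section Sub

variable {G : Type} [Group G] (L : LevelSys G) (p c : ℕ)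

/-- The base hypothesis in subgroup form: the Euler–Poincaré statement with exponent
`c * [G : U]` for the subgroups `U ⊇ W` with `U / W` cyclic of order prime to `p` and the finite
`U`-modules killed by `p` on which `W` acts trivially. -/
def s56elt_SubBaseHyp (W : Subgroup G) : Prop :=
  ∀ U : Subgroup G, W ≤ U → (∃ u ∈ U, ∀ g ∈ U, ∃ k : ℤ, g * u ^ k ∈ W) →
    ¬ p ∣ (W.subgroupOf U).index →
    ∀ (N : Type) [AddCommGroup N] [DistribMulAction ↥U N] [Finite N],
      (∀ n : N, p • n = 0) → (∀ w : ↥U, (w : G) ∈ W → ∀ n : N, w • n = n) →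
      s56elt_EP (L.comap U.subtype) (c * U.index) N

end Sub

section Iso

variable {G Δ : Type} [Group G] [Group Δ] (L : LevelSys G) (π : G →* Δ) {k : Type} [Field k]
  (B : Subgroup Δ) {M : Type} [AddCommGroup M] [Module k M] (ρ : Representation k Δ M)

/-- The `U`-module `Res_U Inf M`, `U = π⁻¹(B)`. -/
abbrev s56elt_resN : Type := s56elt_Inf (π.comp (B.comap π).subtype) ρ

/-- The coinduced representation. -/
abbrev s56elt_coindRep : Representation k Δ (Representation.coindV B.subtype (s56ei_res ρ B)) :=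
  Representation.coind B.subtype (s56ei_res ρ B)

/-- The underlying function of an element of the inflated coinduced module. -/
def s56elt_fun (f : s56elt_Inf π (s56elt_coindRep B ρ)) : Δ → M :=
  (s56elt_ofInf π (s56elt_coindRep B ρ) f).1

lemma s56elt_fun_mul (f : s56elt_Inf π (s56elt_coindRep B ρ)) (b : B) (h : Δ) :
    s56elt_fun π B ρ f ((b : Δ) * h) = ρ (b : Δ) (s56elt_fun π B ρ f h) :=
  (s56elt_ofInf π (s56elt_coindRep B ρ) f).2 b h

lemma s56elt_fun_smul (g : G) (f : s56elt_Inf π (s56elt_coindRep B ρ)) (h : Δ) :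
    s56elt_fun π B ρ (g • f) h = s56elt_fun π B ρ f (h * π g) := rfl

lemma s56elt_fun_add (f f' : s56elt_Inf π (s56elt_coindRep B ρ)) (h : Δ) :
    s56elt_fun π B ρ (f + f') h = s56elt_fun π B ρ f h + s56elt_fun π B ρ f' h := rfl

lemma s56elt_fun_ext {f f' : s56elt_Inf π (s56elt_coindRep B ρ)}
    (h : ∀ δ, s56elt_fun π B ρ f δ = s56elt_fun π B ρ f' δ) : f = f' :=
  Subtype.ext (funext h)

variable (hπk : ∃ W ∈ L.levels, W ≤ π.ker)

include hπk in
lemma s56elt_shMap_mem (f : s56elt_Inf π (s56elt_coindRep B ρ)) :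
    (fun g : G => (s56elt_toInf (π.comp (B.comap π).subtype) ρ (s56elt_fun π B ρ f (π g)) :
        s56elt_resN π B ρ)) ∈ s56esh_coind L (B.comap π) (s56elt_resN π B ρ) := by
  obtain ⟨W, hW, hWπ⟩ := hπk
  refine ⟨fun u x => ?_, W, hW, fun g s hs => ?_⟩
  · show s56elt_fun π B ρ f (π ((u : G) * x)) = ρ (π (u : G)) (s56elt_fun π B ρ f (π x))
    rw [map_mul]
    exact s56elt_fun_mul π B ρ f ⟨π (u : G), u.2⟩ (π x)
  · show s56elt_fun π B ρ f (π (g * s)) = s56elt_fun π B ρ f (π g)
    rw [map_mul, MonoidHom.mem_ker.1 (hWπ hs), mul_one]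

/-- The comparison map `Inf (coind_B^Δ Res_B M) → Coind_U^G (Res_U Inf M)`. -/
def s56elt_shMap : s56elt_Inf π (s56elt_coindRep B ρ) →+
    s56esh_Coind L (B.comap π) (s56elt_resN π B ρ) where
  toFun f := ⟨_, s56elt_shMap_mem L π B ρ hπk f⟩
  map_zero' := rfl
  map_add' _ _ := rfl

lemma s56elt_shMap_apply (f : s56elt_Inf π (s56elt_coindRep B ρ)) (g : G) :
    (s56elt_shMap L π B ρ hπk f).1 g = s56elt_fun π B ρ f (π g) := rfl

lemma s56elt_shMap_equiv (g : G) (f : s56elt_Inf π (s56elt_coindRep B ρ)) :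
    s56elt_shMap L π B ρ hπk (g • f) = g • s56elt_shMap L π B ρ hπk f := by
  apply s56esh_coind_ext
  intro x
  rw [s56esh_smul_apply, s56elt_shMap_apply, s56elt_shMap_apply, s56elt_fun_smul, map_mul]

lemma s56elt_shMap_injective (hπ : Surjective π) : Injective (s56elt_shMap L π B ρ hπk) := by
  intro f f' h
  apply s56elt_fun_ext
  intro δ
  obtain ⟨g, rfl⟩ := hπ δ
  have := congrFun (congrArg Subtype.val h) g
  exact this

lemma s56elt_shMap_surjective (hπ : Surjective π) : Surjective (s56elt_shMap L π B ρ hπk) := by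
  intro φ
  -- `φ g` only depends on `π g`
  have hdep : ∀ g g' : G, π g = π g' → φ.1 g' = φ.1 g := by
    intro g g' hgg'
    have hmem : g' * g⁻¹ ∈ B.comap π := by
      rw [Subgroup.mem_comap, map_mul, map_inv, ← hgg', mul_inv_cancel]
      exact B.one_mem
    have h1 := s56esh_coind_equiv φ ⟨g' * g⁻¹, hmem⟩ g
    have e : ((⟨g' * g⁻¹, hmem⟩ : B.comap π) : G) * g = g' := by
      show g' * g⁻¹ * g = g'
      group
    rw [e] at h1
    rw [h1]
    show ρ (π (g' * g⁻¹)) (φ.1 g) = φ.1 g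
    rw [map_mul, map_inv, ← hgg', mul_inv_cancel, map_one]
    rfl
  set σ : Δ → G := Function.surjInv hπ with hσ
  have hσπ : ∀ δ, π (σ δ) = δ := Function.surjInv_eq hπ
  have hmem : (fun δ => s56elt_ofInf (π.comp (B.comap π).subtype) ρ (φ.1 (σ δ))) ∈
      Representation.coindV B.subtype (s56ei_res ρ B) := by
    intro b h
    have hu : σ (b : Δ) ∈ B.comap π := by
      rw [Subgroup.mem_comap, hσπ]
      exact b.2
    have h1 : φ.1 (σ ((b : Δ) * h)) = φ.1 (σ (b : Δ) * σ h) :=
      hdep _ _ (by rw [map_mul, hσπ, hσπ, hσπ])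
    have h2 := s56esh_coind_equiv φ ⟨σ (b : Δ), hu⟩ (σ h)
    show s56elt_ofInf _ ρ (φ.1 (σ ((b : Δ) * h))) = ρ (b : Δ) _
    rw [h1, h2]
    show ρ (π (σ (b : Δ))) _ = ρ (b : Δ) _
    rw [hσπ]
    rfl
  refine ⟨s56elt_toInf π (s56elt_coindRep B ρ) ⟨_, hmem⟩, ?_⟩
  apply s56esh_coind_ext
  intro g
  rw [s56elt_shMap_apply]
  show φ.1 (σ (π g)) = φ.1 g
  exact hdep g _ (hσπ (π g)).symm

/-- The comparison isomorphism. -/
noncomputable def s56elt_shEquiv (hπ : Surjective π) :
    s56elt_Inf π (s56elt_coindRep B ρ) ≃+ s56esh_Coind L (B.comap π) (s56elt_resN π B ρ) :=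
  AddEquiv.ofBijective (s56elt_shMap L π B ρ hπk)
    ⟨s56elt_shMap_injective L π B ρ hπk hπ, s56elt_shMap_surjective L π B ρ hπk hπ⟩

end Iso

section Base

variable {G Δ : Type} [Group G] [Group Δ] [Finite Δ] (L : LevelSys G) (π : G →* Δ)
  (p : ℕ) [hp : Fact p.Prime] (c : ℕ)

/-- **The base hypothesis of the formal theorem from its subgroup form**, by Shapiro's lemma. -/
theorem s56elt_baseHyp_of_sub (hπ : Surjective π) (hW : π.ker ∈ L.levels)
    (hSub : s56elt_SubBaseHyp L p c π.ker) : s56elt_BaseHyp L π p c := by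
  intro B hB hcop M _ _ _ ρ
  haveI : Finite M := Module.finite_of_finite (ZMod p)
  have hπk : ∃ W ∈ L.levels, W ≤ π.ker := ⟨π.ker, hW, le_rfl⟩
  set U : Subgroup G := B.comap π with hU
  have h1 : π.ker ≤ U := by
    intro w hw
    rw [hU, Subgroup.mem_comap, MonoidHom.mem_ker.1 hw]
    exact B.one_mem
  have h2 : ∃ u ∈ U, ∀ g ∈ U, ∃ j : ℤ, g * u ^ j ∈ π.ker := by
    obtain ⟨b, hb⟩ := hB.exists_generator
    obtain ⟨u, hu⟩ := hπ (b : Δ)
    refine ⟨u, ?_, fun g hg => ?_⟩
    · rw [hU, Subgroup.mem_comap, hu]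
      exact b.2
    · obtain ⟨j, hj⟩ := Subgroup.mem_zpowers_iff.1 (hb ⟨π g, hg⟩)
      refine ⟨-j, ?_⟩
      rw [MonoidHom.mem_ker, map_mul, map_zpow, hu]
      have hj' : (b : Δ) ^ j = π g := by
        have := congrArg Subtype.val hj
        simpa using this
      rw [← hj', ← zpow_add, add_neg_cancel, zpow_zero]
  have h3 : ¬ p ∣ (π.ker.subgroupOf U).index := by
    have e : (π.ker.subgroupOf U).index = Nat.card B := by
      show π.ker.relIndex U = Nat.card B
      rw [← MonoidHom.comap_bot π, Subgroup.relIndex_comap, hU,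
        Subgroup.map_comap_eq_self_of_surjective hπ, Subgroup.relIndex_bot_left]
    rw [e]
    intro hdvd
    have := Nat.Coprime.eq_one_of_dvd hcop.symm hdvd
    exact hp.out.one_lt.ne' this
  have hN : (L.comap U.subtype).IsSmooth (s56elt_resN π B ρ) := by
    refine s56elt_Inf.isSmooth ρ (L.comap U.subtype)
      ⟨π.ker.comap U.subtype, ⟨π.ker, hW, rfl⟩, fun w hw => ?_⟩
    rw [MonoidHom.mem_ker, MonoidHom.comp_apply]
    exact MonoidHom.mem_ker.1 hw
  have hEPN : s56elt_EP (L.comap U.subtype) (c * U.index) (s56elt_resN π B ρ) := by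
    refine hSub U h1 h2 h3 (s56elt_resN π B ρ) (s56elt_Inf.nsmul_eq_zero _ ρ) ?_
    intro w hw n
    show ρ (π (w : G)) n = n
    rw [MonoidHom.mem_ker.1 hw, map_one]
    rfl
  have hidx : U.index = Nat.card (Δ ⧸ B) := by
    rw [hU, Subgroup.index_comap_of_surjective B hπ]
    rfl
  have hcardM : Nat.card (s56elt_Inf π (s56elt_coindRep B ρ)) = Nat.card M ^ U.index := by
    rw [hidx, ← Nat.card_fun]
    exact (Nat.card_congr (Equiv.ofBijective _ (s56ei_frobMap_bijective ρ B))).symm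
  have hcard : Nat.card (s56esh_Coind L U (s56elt_resN π B ρ)) ^ c
      = Nat.card (s56elt_resN π B ρ) ^ (c * U.index) := by
    rw [← Nat.card_congr (s56elt_shEquiv L π B ρ hπk hπ).toEquiv, hcardM, ← pow_mul, mul_comm]
    rfl
  have hEPC := s56elt_EP_coind L U (s56elt_resN π B ρ) ⟨π.ker, hW, h1⟩ hN c (c * U.index) hcard
    hEPN
  exact s56elt_EP_congr L c (s56elt_shEquiv L π B ρ hπk hπ).symm
    (s56elt_symm_equiv _ (s56elt_shMap_equiv L π B ρ hπk)) hEPC

end Base

end Fermat.Agent.S56
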