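import Fermat.Agent.S56.GW.EC.LecTop.Shapiro
import Fermat.Agent.S56.GW.Dual.D4.LocBridge

/-!
# S56 [LEC-TOP]: the local Euler characteristic seam from its two inputs (prefix `s56elt_`)

* `s56elt_main` : for a level system `L` on `G`, a normal level `W`, a prime `p`: right-exactness
  (`s56elt_REHyp`) and the base class in subgroup form (`s56elt_SubBaseHyp`) give the
  Euler–Poincaré statement for every finite `G`-module killed by `p` on which `W` acts trivially;
* `s56elt_H3_stmt`, `s56elt_Base_stmt` : the two local seams at `Gal(ℚ̄_q/ℚ_q)`;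
* `s56elt_LEC : s56elt_H3_stmt → s56elt_Base_stmt → s56gw_LEC_stmt`.
-/

set_option autoImplicit false
set_option linter.style.haveILetI false
set_option linter.unusedSectionVars false

namespace Fermat.Agent.S56

open Fermat.Agent.S55 groupCohomology Function CategoryTheory Module ExtCitation

section Abstract

variable {G : Type} [Group G] (L : LevelSys G) (p : ℕ) [hp : Fact p.Prime] (c : ℕ)

/-- The representation of `G ⧸ W` on a `G`-module killed by `p` on which `W` acts trivially. -/
noncomputable def s56elt_quotRep (W : Subgroup G) [W.Normal] (X : Type) [AddCommGroup X]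
    [DistribMulAction G X] [Module (ZMod p) X] (hWX : ∀ w ∈ W, ∀ x : X, w • x = x) :
    Representation (ZMod p) (G ⧸ W) X :=
  QuotientGroup.lift W
    ({ toFun := fun g => (DistribSMul.toAddMonoidHom X g).toZModLinearMap p
       map_one' := by
         ext x
         show (1 : G) • x = x
         rw [one_smul]
       map_mul' := fun g h => by
         ext x
         show (g * h) • x = g • h • x
         rw [mul_smul] } : G →* (X →ₗ[ZMod p] X))
    (fun w hw => by
      ext x
      show w • x = x
      exact hWX w hw x)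

lemma s56elt_quotRep_mk (W : Subgroup G) [W.Normal] (X : Type) [AddCommGroup X]
    [DistribMulAction G X] [Module (ZMod p) X] (hWX : ∀ w ∈ W, ∀ x : X, w • x = x) (g : G)
    (x : X) : s56elt_quotRep p W X hWX (QuotientGroup.mk' W g) x = g • x := rfl

/-- The abstract local Euler characteristic theorem, with a given `ZMod p`-module structure. -/
theorem s56elt_main_aux (W : Subgroup G) [hWn : W.Normal] (hW : W ∈ L.levels)
    (hRE : s56elt_REHyp L p) (hSub : s56elt_SubBaseHyp L p c W)
    (X : Type) [AddCommGroup X] [DistribMulAction G X] [Module (ZMod p) X] [Finite X]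
    (hWX : ∀ w ∈ W, ∀ x : X, w • x = x) : s56elt_EP L c X := by
  haveI : Module.Finite (ZMod p) X := Module.Finite.of_finite
  haveI : W.FiniteIndex := L.finiteIndex W hW
  haveI : Finite (G ⧸ W) := Subgroup.finite_quotient_of_finiteIndex
  set π : G →* G ⧸ W := QuotientGroup.mk' W with hπ
  have hker : π.ker = W := QuotientGroup.ker_mk' W
  have hsurj : Surjective π := QuotientGroup.mk'_surjective W
  set ρ := s56elt_quotRep p W X hWX with hρ
  have hBase : s56elt_BaseHyp L π p c :=
    s56elt_baseHyp_of_sub L π p c hsurj (by rw [hker]; exact hW) (by rw [hker]; exact hSub)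
  have h := s56elt_formal (L := L) (π := π) (p := p) (c := c) ⟨W, hW, by rw [hker]⟩ hRE hBase X ρ
  exact s56elt_EP_congr L c (s56elt_InfEquiv π ρ) (fun g x => rfl) h

/-- **The abstract local Euler characteristic theorem.** -/
theorem s56elt_main (W : Subgroup G) [hWn : W.Normal] (hW : W ∈ L.levels)
    (hRE : s56elt_REHyp L p) (hSub : s56elt_SubBaseHyp L p c W)
    (X : Type) [AddCommGroup X] [DistribMulAction G X] [Finite X] (hpX : ∀ x : X, p • x = 0)
    (hWX : ∀ w ∈ W, ∀ x : X, w • x = x) : s56elt_EP L c X :=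
  @s56elt_main_aux G _ L p hp c W hWn hW hRE hSub X _ _ (AddCommGroup.zmodModule hpX) _ hWX

end Abstract

section Concrete

local notation "GQ" => (AlgebraicClosure ℚ ≃ₐ[ℚ] AlgebraicClosure ℚ)

/-- **LOCAL SEAM [EC-H3-loc]**: vanishing of `H³` of the local Galois groups with finite
`p`-torsion smooth coefficients (in the form `s56ecs_H3V`: every level-constant 3-cocycle is the
coboundary of a level-constant 2-cochain). -/
def s56elt_H3_stmt : Prop :=
  ∀ (p : ℕ) [Fact p.Prime] (q : Nat.Primes), s56elt_H3Hyp (tl_levelsLoc q) p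

/-- **LOCAL SEAM [LEC-BASE]**: the local Euler characteristic formula
`|H¹(K, N)| = |H⁰(K, N)| |H²(K, N)| |N|^{[K:ℚ_p][q = p]}` (with finiteness) for the finite
extensions `K` of `ℚ_q` (`U = Gal(ℚ̄_q/K)`) and the finite `p`-torsion modules `N` which are
trivial on a normal level `W` with `U / W` cyclic of order prime to `p`. -/
def s56elt_Base_stmt : Prop :=
  ∀ (p : ℕ) [Fact p.Prime], p ≠ 2 → ∀ (q : Nat.Primes)
    (W : Subgroup (primeLocalGaloisGroup q)), W ∈ (tl_levelsLoc q).levels → W.Normal →
    s56elt_SubBaseHyp (tl_levelsLoc q) p (if q = pPrime p then 1 else 0) W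

variable {p : ℕ} [hp : Fact p.Prime]

/-- Invariants of the restricted representation and invariants of the carrier module. -/
def s56elt_invEquiv (M : Rep.{0} (ZMod p) GQ) (q : Nat.Primes) :
    ↥(s56gw_res M q).ρ.invariants ≃
      lvH0 (G := primeLocalGaloisGroup q) (tl_Act (s56gw_res M q)) where
  toFun x := ⟨x.1, fun g => (Representation.mem_invariants _ _).1 x.2 g⟩
  invFun y := ⟨y.1, (Representation.mem_invariants _ _).2 fun g => y.2 g⟩
  left_inv _ := rfl
  right_inv _ := rfl

section Act

variable (M : Rep.{0} (ZMod p) GQ) (q : Nat.Primes)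

theorem s56elt_act_finite [FiniteDimensional (ZMod p) M] : Finite (tl_Act (s56gw_res M q)) := by
  haveI : FiniteDimensional (ZMod p) (tl_Act (s56gw_res M q)) :=
    inferInstanceAs (FiniteDimensional (ZMod p) M)
  exact Module.finite_of_finite (ZMod p)

theorem s56elt_act_tors (x : tl_Act (s56gw_res M q)) : p • x = 0 :=
  ZModModule.char_nsmul_eq_zero p x

theorem s56elt_act_smooth (hsm : s56gw_Smooth M) :
    (tl_levelsLoc q).IsSmooth (tl_Act (s56gw_res M q)) := by
  intro x
  obtain ⟨F, hF, h⟩ := hsm x
  exact ⟨F.fixingSubgroup.comap (primeLocalToGlobal q), ⟨_, ⟨F, hF, rfl⟩, rfl⟩,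
    fun u hu => h (primeLocalToGlobal q u) hu⟩

/-- **[LEC-BRIDGE]**: the Euler–Poincaré statement for the level cohomology of
`tl_Act (s56gw_res M q)` gives the conclusion of `s56gw_LEC_stmt` for `M` at `q`. -/
theorem s56elt_bridge [FiniteDimensional (ZMod p) M]
    (hEP : s56elt_EP (tl_levelsLoc q) (if q = pPrime p then 1 else 0)
      (tl_Act (s56gw_res M q))) :
    FiniteDimensional (ZMod p) (s56gw_cH1 M q) ∧
    FiniteDimensional (ZMod p) (continuousH2 (primeLocalToGlobal q) (s56gw_res M q)) ∧
    finrank (ZMod p) (continuousH2 (primeLocalToGlobal q) (s56gw_res M q))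
        + finrank (ZMod p) (s56gw_res M q).ρ.invariants
        + (if q = pPrime p then finrank (ZMod p) M else 0)
      ≤ finrank (ZMod p) (s56gw_cH1 M q) := by
  have hpp : p.Prime := Fact.out
  haveI := s56elt_act_finite M q
  obtain ⟨f1, f2, heq⟩ := hEP
  have e1 : lvH1 (tl_levelsLoc q) (tl_Act (s56gw_res M q)) ≃+ ↥(s56gw_cH1 M q) :=
    s56gdr_locEquiv M q
  have e2 : continuousH2 (primeLocalToGlobal q) (s56gw_res M q) ≃+
      lvH2 (tl_levelsLoc q) (tl_Act (s56gw_res M q)) :=
    tl_H2via_equiv (primeLocalToGlobal q) (s56gw_res M q)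
  have e0 := s56elt_invEquiv M q
  haveI : Finite ↥(s56gw_cH1 M q) := Finite.of_equiv _ e1.toEquiv
  haveI : Finite (continuousH2 (primeLocalToGlobal q) (s56gw_res M q)) :=
    Finite.of_equiv _ e2.symm.toEquiv
  haveI : Finite ↥(s56gw_res M q).ρ.invariants := Finite.of_equiv _ e0.symm
  have hfd1 : FiniteDimensional (ZMod p) ↥(s56gw_cH1 M q) := Module.Finite.of_finite
  have hfd2 : FiniteDimensional (ZMod p) (continuousH2 (primeLocalToGlobal q) (s56gw_res M q)) :=
    Module.Finite.of_finite
  refine ⟨hfd1, hfd2, ?_⟩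
  have c1 := Module.natCard_eq_pow_finrank (K := ZMod p) (V := ↥(s56gw_cH1 M q))
  have c2 := Module.natCard_eq_pow_finrank (K := ZMod p)
    (V := continuousH2 (primeLocalToGlobal q) (s56gw_res M q))
  have c0 := Module.natCard_eq_pow_finrank (K := ZMod p) (V := ↥(s56gw_res M q).ρ.invariants)
  have cM := Module.natCard_eq_pow_finrank (K := ZMod p) (V := M)
  rw [Nat.card_zmod] at c1 c2 c0 cM
  have hcardX : Nat.card (tl_Act (s56gw_res M q)) = Nat.card M := rfl
  rw [Nat.card_congr e1.toEquiv, ← Nat.card_congr e2.toEquiv, ← Nat.card_congr e0, hcardX,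
    c1, c2, c0, cM, ← pow_mul, ← pow_add, ← pow_add] at heq
  have key := Nat.pow_right_injective hpp.two_le heq
  by_cases hq : q = pPrime p
  · rw [if_pos hq]
    rw [if_pos hq, mul_one] at key
    omega
  · rw [if_neg hq]
    rw [if_neg hq, mul_zero] at key
    omega

end Act

/-- **The local Euler characteristic seam of [GW] from the two local seams.** -/
theorem s56elt_LEC (h3 : s56elt_H3_stmt) (hB : s56elt_Base_stmt) : s56gw_LEC_stmt := by
  intro p _ hp2 M _ hsm q
  haveI := s56elt_act_finite M q
  have hX := s56elt_act_smooth M q hsm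
  obtain ⟨W₀, hW₀⟩ := (tl_levelsLoc q).nonempty
  obtain ⟨W, hW, -, hWn, hWfix⟩ := hX.exists_level (tl_levelsLoc q)
    (Set.toFinite (Set.univ : Set (tl_Act (s56gw_res M q)))) hW₀
  refine s56elt_bridge M q ?_
  exact s56elt_main (tl_levelsLoc q) p _ W hW (s56elt_REHyp_of_H3Hyp _ p (h3 p q))
    (hB p hp2 q W hW hWn) (tl_Act (s56gw_res M q)) (s56elt_act_tors M q)
    (fun w hw x => hWfix w hw x (Set.mem_univ x))

end Concrete

end Fermat.Agent.S56
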